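import Fermat.Agent.S15.H379.Peu
import Fermat.Agent.S15.H975.DescSpec

/-!
# S15 / DESC, leaves T2-ω and T2-1 — VERBATIM (helper379)

`t2Omega : H975.T2OmegaStatement` and `t2One : H975.T2OneStatement`, the frozen leaves of
`Fermat/Agent/S15/H975/DescSpec.lean`, from `peuKummer_of_hopfModel` / `peu1_of_hopfModel`
(`Peu.lean`; the mathematics is the S56 FLAT-O library: `flatUnit`, `flatInertia`, `unrVal`).
-/

set_option autoImplicit false
set_option linter.unusedSectionVars false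
set_option linter.style.haveILetI false

noncomputable section

namespace Fermat.Agent.S15.H379

open Fermat.Agent.S15

/-- There is a valuation subring of `ℚ̄` over every prime number. -/
theorem exists_valuationSubring_liesOver (r : ℕ) (hr : r.Prime) :
    ∃ A : ValuationSubring H975.Qb, A.LiesOverPrime r := by
  let A₀ : Subring H975.Qb := (algebraMap ℤ H975.Qb).range
  let l₀ : A₀ := ⟨((r : ℕ) : H975.Qb), ⟨((r : ℕ) : ℤ), by simp⟩⟩
  have hI : Ideal.span {l₀} ≠ ⊤ := by
    intro h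
    rw [Ideal.span_singleton_eq_top] at h
    obtain ⟨⟨m, n, rfl⟩, hm⟩ := h.exists_right_inv
    have h1 : (((r : ℕ) : ℤ) : H975.Qb) * ((n : ℤ) : H975.Qb) = 1 := by
      have := congrArg Subtype.val hm
      simpa [l₀] using this
    have h2 : ((r : ℕ) : ℤ) * n = 1 := by exact_mod_cast h1
    have h3 : ((r : ℕ) : ℤ) ∣ 1 := ⟨n, h2.symm⟩
    have h4 : (r : ℤ) ≤ 1 := Int.le_of_dvd one_pos h3
    have := hr.two_le
    omega
  obtain ⟨A, -, hA⟩ := Ideal.image_subset_nonunits_valuationSubring _ hI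
  refine ⟨A, ?_⟩
  apply hA
  exact ⟨l₀, Ideal.subset_span rfl, rfl⟩

/-- A linear coordinate: if `e` is not a multiple of `y`, some additive `ξ : Q → 𝔽_r` has
`ξ e = 1`, `ξ y = 0`. -/
theorem exists_coord (r : ℕ) [Fact r.Prime] (Q : Type) [AddCommGroup Q] [Module (ZMod r) Q]
    (e y : Q) (he : ∀ c : ZMod r, c • y ≠ e) :
    ∃ ξ : Q →+ ZMod r, ξ e = 1 ∧ ξ y = 0 := by
  have hey : e ∉ Submodule.span (ZMod r) ({y} : Set Q) := by
    intro h
    obtain ⟨c, hc⟩ := Submodule.mem_span_singleton.mp h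
    exact he c hc
  obtain ⟨f, hf, hfZ⟩ : ∃ f : Q →ₗ[ZMod r] ZMod r, f e ≠ 0 ∧
      (Submodule.span (ZMod r) ({y} : Set Q)).map f = ⊥ :=
    Submodule.exists_dual_map_eq_bot_of_notMem hey inferInstance
  have hfy : f y = 0 := by
    have : f y ∈ (Submodule.span (ZMod r) ({y} : Set Q)).map f :=
      ⟨y, Submodule.subset_span rfl, rfl⟩
    rw [hfZ] at this
    exact (Submodule.mem_bot _).mp this
  refine ⟨(((f e)⁻¹ • f : Q →ₗ[ZMod r] ZMod r)).toAddMonoidHom, ?_, ?_⟩
  · show (f e)⁻¹ * f e = 1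
    exact inv_mul_cancel₀ hf
  · show (f e)⁻¹ * f y = 0
    rw [hfy, mul_zero]

/-- **T2-1**, verbatim. -/
theorem t2One : H975.T2OneStatement := by
  intro r hr hr2 Q _ _ act hact hH e y hre hry hgen he hy A hA τ hτ
  haveI : Fact r.Prime := ⟨hr⟩
  have hM : ∀ x : Q, r • x = 0 := by
    intro x
    obtain ⟨i, j, rfl⟩ := hgen x
    rw [nsmul_add, smul_comm r i e, smul_comm r j y, hre, hry, nsmul_zero, nsmul_zero,
      add_zero]
  have hnsmul : ∀ (σ : H975.Gal) (m : ℕ) (x : Q), act σ (m • x) = m • act σ x := by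
    intro σ m x
    induction m with
    | zero =>
      rw [zero_nsmul, zero_nsmul]
      have h := hact.act_add σ 0 0
      rw [add_zero] at h
      exact left_eq_add.mp h
    | succ m ih => rw [succ_nsmul, succ_nsmul, hact.act_add, ih]
  refine peu1_of_hopfModel r hr2 Q act hH hM A hA τ hτ y ?_
  intro τ' _
  obtain ⟨m, hm⟩ := hy τ
  rw [hm, add_sub_cancel_left, hnsmul, he]

/-- **T2-ω**, verbatim. -/
theorem t2Omega : H975.T2OmegaStatement := by
  intro r hr Q _ _ act hact hH e y hre hry he0 hindep hgen ζ hζ hωe a α ha hα hκ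
  classical
  haveI : Fact r.Prime := ⟨hr⟩
  haveI : NeZero r := ⟨hr.ne_zero⟩
  have hM : ∀ x : Q, r • x = 0 := by
    intro x
    obtain ⟨i, j, rfl⟩ := hgen x
    rw [nsmul_add, smul_comm r i e, smul_comm r j y, hre, hry, nsmul_zero, nsmul_zero,
      add_zero]
  have hnsmul : ∀ (σ : H975.Gal) (m : ℕ) (x : Q), act σ (m • x) = m • act σ x := by
    intro σ m x
    induction m with
    | zero =>
      rw [zero_nsmul, zero_nsmul]
      have h := hact.act_add σ 0 0
      rw [add_zero] at h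
      exact left_eq_add.mp h
    | succ m ih => rw [succ_nsmul, succ_nsmul, hact.act_add, ih]
  obtain ⟨P, hP⟩ := exists_valuationSubring_liesOver r hr
  -- the `e`-coordinate
  obtain ⟨ξ, hξe, hξy⟩ : ∃ ξ : Q →+ ZMod r, ξ e = 1 ∧ ξ y = 0 := by
    refine @exists_coord r _ Q _ (AddCommGroup.zmodModule hM) e y ?_
    intro c hc
    have h2 := @Nat.cast_smul_eq_nsmul (ZMod r) Q _ _ (AddCommGroup.zmodModule hM) c.val y
    rw [ZMod.natCast_zmod_val c] at h2
    rw [h2] at hc
    have h1 : c.val • y ∈ AddSubgroup.zmultiples e := by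
      rw [hc]
      exact AddSubgroup.mem_zmultiples e
    obtain ⟨k, hk⟩ := hindep _ h1
    rw [hk, mul_nsmul', smul_comm, hry, nsmul_zero] at hc
    exact he0 hc.symm
  have hξm : ∀ m : ℕ, ξ (m • e) = (m : ZMod r) := by
    intro m
    rw [map_nsmul, hξe, nsmul_eq_mul, mul_one]
  have hζr : ζ ^ r = 1 := hζ.pow_eq_one
  -- every `σ` moves `α` by a power of `ζ`
  have hαpow : ∀ σ : H975.Gal, ∃ m : ℕ, σ α = ζ ^ m * α := by
    intro σ
    have hα0 : α ≠ 0 := by
      intro h
      rw [h, zero_pow hr.ne_zero] at hα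
      exact ha ((algebraMap ℚ H975.Qb).injective (by rw [← hα, map_zero]))
    have h1 : (σ α / α) ^ r = 1 := by
      rw [div_pow, ← map_pow, hα, AlgEquiv.commutes, div_self]
      rw [← hα]
      exact pow_ne_zero _ hα0
    obtain ⟨m, -, hm⟩ := hζ.eq_pow_of_pow_eq_one h1
    exact ⟨m, by rw [hm, div_mul_cancel₀ _ hα0]⟩
  refine peuKummer_of_hopfModel r Q act hH hM P hP ζ hζ (AddSubgroup.zmultiples e) ?_ ?_ ξ y a ha
    α hα ?_
  · -- `I₁` fixes `⟨e⟩` pointwise
    intro σ _ hσζ t ht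
    obtain ⟨k, rfl⟩ := AddSubgroup.mem_zmultiples_iff.mp ht
    have h1 : act σ e = e := by
      have := hωe σ 1 (by rw [pow_one]; exact hσζ)
      rwa [one_nsmul] at this
    have hneg : ∀ x : Q, act σ (-x) = - act σ x := by
      intro x
      have h0 : act σ 0 = 0 := by
        have h := hact.act_add σ 0 0
        rw [add_zero] at h
        exact left_eq_add.mp h
      have h := hact.act_add σ x (-x)
      rw [add_neg_cancel, h0] at h
      exact (neg_eq_of_add_eq_zero_right h.symm).symm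
    rcases Int.eq_nat_or_neg k with ⟨n, rfl | rfl⟩
    · rw [natCast_zsmul, hnsmul, h1]
    · rw [neg_zsmul, natCast_zsmul, hneg, hnsmul, h1]
  · -- `σ x - x ∈ ⟨e⟩`
    intro σ _ _ x
    obtain ⟨i, j, rfl⟩ := hgen x
    obtain ⟨m, hm⟩ := hαpow σ
    obtain ⟨k, hk⟩ : ∃ k : ℕ, σ ζ = ζ ^ k := by
      have h1 : (σ ζ) ^ r = 1 := by rw [← map_pow, hζr, map_one]
      obtain ⟨k, -, hk⟩ := hζ.eq_pow_of_pow_eq_one h1
      exact ⟨k, hk.symm⟩
    rw [hact.act_add, hnsmul, hnsmul, hωe σ k hk, hκ σ m hm]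
    have : i • k • e + j • (y + m • e) - (i • e + j • y) =
        ((i * k + j * m : ℕ) : ℤ) • e - (i : ℤ) • e := by
      rw [natCast_zsmul, natCast_zsmul, add_nsmul, mul_nsmul', mul_nsmul', nsmul_add]
      abel
    rw [this]
    exact AddSubgroup.sub_mem _ (AddSubgroup.zsmul_mem _ (AddSubgroup.mem_zmultiples e) _)
      (AddSubgroup.zsmul_mem _ (AddSubgroup.mem_zmultiples e) _)
  · -- the Kummer cocycle
    intro σ _ _
    obtain ⟨m, hm⟩ := hαpow σ
    rw [hκ σ m hm, add_sub_cancel_left, hξm, ZMod.val_natCast, ← pow_eq_pow_mod _ hζr, hm]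

end Fermat.Agent.S15.H379
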