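import Fermat.Agent.S56.H906.FI
import Fermat.Agent.S56.H664.FlatUnit
import Fermat.Agent.S56.H460.UnrVal
import Fermat.Agent.S05.Sq12.Inertia

/-!
# S15 / DESC, tower T2 (PEU) — adapters (helper379)

Blueprint `coord/S15-DESC-blueprint.md` sec. 4, T2: local conditions at `r` for the classes
`φ_i(y)` coming from a finite flat model.  No new algebra is needed: the S56 FLAT-O library on
main (Hopf lattices `S19.H435.IsHopfLattice`) already contains

* `S56.H906.flatInertia` (FI, `r` odd): `(I_aug M) ∩ M^I = 0`;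
* `S56.H664.flatUnit` (FU, all `r`): the Kummer character of `I₁ = {σ ∈ I : σ ζ = ζ}` attached
  to a point is the Kummer character of a `P`-unit;
* `S56.H460.unrVal`: the inertia field is unramified.

Here:

* `peu1` (PEU-1, `r` odd): if `σ y - y` is inertia-fixed (`σ ∈ I_P`), then `σ y = y`.
* `exists_pow_eq_zpow_of_fixed`: a nonzero element fixed by `I₁` has `v(y)^m = v(r)^n` with
  `0 < m < r`.
* `valuation_rat_eq`: `v_P(a) = v_P(r) ^ padicValRat r a` for `a ∈ ℚ^×`.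
* `peuKummer` (PEU-ω and PEU-2, ALL `r`): if `α ^ r = a ∈ ℚ^×` and `σ α = ζ ^ ξ(σ x - x) α` on
  `I₁`, then `r ∣ v_r(a)`.
* `_of_hopfModel` forms (input = `S19.HopfModel`, the output of T1 / of the S19 closure lemmas).
-/

set_option autoImplicit false
set_option linter.unusedSectionVars false
set_option linter.style.haveILetI false

noncomputable section

namespace Fermat.Agent.S15.H379

open Fermat.Agent.S56 Fermat.Agent.S56.H906

/-! ## PEU-1 -/

/-- **PEU-1** (`r` odd): in a flat module killed by `r`, an inertia element `σ` at `P | r` with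
`σ y - y` fixed by inertia fixes `y`.  (Consumer: `G` acts trivially on a subgroup `P_i` and on
the quotient by it.) -/
theorem peu1 (r : ℕ) [Fact r.Prime] (hr2 : r ≠ 2) (M : Type) [AddCommGroup M] [Finite M]
    (act : GQ → M → M) (Λ : Subalgebra (Zp r) (M → Qb)) (hΛ : IsHL r act Λ)
    (hM : ∀ x : M, r • x = 0) (P : ValuationSubring Qb) (hP : P.LiesOverPrime r)
    (σ : GQ) (hσ : σ ∈ P.inertiaSubgroupIn ℚ) (y : M)
    (hfix : ∀ τ ∈ P.inertiaSubgroupIn ℚ, act τ (act σ y - y) = act σ y - y) :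
    act σ y = y := by
  have h0 : act σ y - y = 0 :=
    flatInertia r hr2 M act Λ hΛ hM P hP (act σ y - y) hfix
      (AddSubgroup.subset_closure ⟨σ, hσ, y, rfl⟩)
  exact sub_eq_zero.mp h0

/-- PEU-1 from a Hopf model. -/
theorem peu1_of_hopfModel (r : ℕ) [Fact r.Prime] (hr2 : r ≠ 2) (M : Type) [AddCommGroup M]
    [Finite M] (act : GQ → M → M) (hH : Fermat.Agent.S19.HopfModel r M act)
    (hM : ∀ x : M, r • x = 0) (P : ValuationSubring Qb) (hP : P.LiesOverPrime r)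
    (σ : GQ) (hσ : σ ∈ P.inertiaSubgroupIn ℚ) (y : M)
    (hfix : ∀ τ ∈ P.inertiaSubgroupIn ℚ, act τ (act σ y - y) = act σ y - y) :
    act σ y = y := by
  obtain ⟨Λ, hΛ⟩ := Fermat.Agent.S19.H435.exists_isHopfLattice_of_hopfModel hH
  exact peu1 r hr2 M act Λ hΛ hM P hP σ hσ y hfix

/-! ## Valuations of rational numbers -/

/-- The `P`-valuation of a rational number prime to `r` is `1`. -/
theorem valuation_rat_eq_one (r : ℕ) (hr : r.Prime) (P : ValuationSubring Qb)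
    (hP : P.LiesOverPrime r) (b : ℚ) (hb : b ≠ 0) (hv : padicValRat r b = 0) :
    P.valuation (algebraMap ℚ Qb b) = 1 := by
  haveI : Fact r.Prime := ⟨hr⟩
  have hnum : b.num ≠ 0 := Rat.num_ne_zero.mpr hb
  have hden : b.den ≠ 0 := b.den_ne_zero
  have hdef : padicValRat r b = padicValInt r b.num - padicValNat r b.den := rfl
  rw [hdef] at hv
  have hcop : Nat.Coprime b.num.natAbs b.den := b.reduced
  -- not both divisible by `r`
  have hnot : ¬ ((r : ℤ) ∣ b.num ∧ r ∣ b.den) := by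
    rintro ⟨h1, h2⟩
    have h1' : r ∣ b.num.natAbs := Int.natCast_dvd.mp h1
    have := Nat.dvd_gcd h1' h2
    rw [hcop] at this
    exact hr.one_lt.ne' (Nat.dvd_one.mp this)
  have hnd_num : ¬ (r : ℤ) ∣ b.num := by
    intro h1
    have h2 : ¬ r ∣ b.den := fun h2 => hnot ⟨h1, h2⟩
    have h3 : padicValNat r b.den = 0 := padicValNat.eq_zero_of_not_dvd h2
    rw [h3] at hv
    have h4 : padicValInt r b.num = 0 := by
      have : (padicValInt r b.num : ℤ) = 0 := by simpa using hv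
      exact_mod_cast this
    have h5 : 0 < padicValInt r b.num := by
      rw [padicValInt]
      exact (one_le_padicValNat_of_dvd (Int.natAbs_ne_zero.mpr hnum)
        (Int.natCast_dvd.mp h1))
    omega
  have hnd_den : ¬ r ∣ b.den := by
    intro h2
    have h3 : padicValInt r b.num = 0 := padicValInt.eq_zero_of_not_dvd hnd_num
    rw [h3] at hv
    have h5 : 0 < padicValNat r b.den := one_le_padicValNat_of_dvd hden h2
    have : (padicValNat r b.den : ℤ) = 0 := by simpa using hv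
    have : padicValNat r b.den = 0 := by exact_mod_cast this
    omega
  have h1 : algebraMap ℚ Qb b = (b.num : Qb) / ((b.den : ℕ) : Qb) := by
    conv_lhs => rw [← Rat.num_div_den b]
    rw [map_div₀, map_intCast, map_natCast]
  rw [h1, map_div₀,
    Fermat.Agent.S05.Sq12.valuation_intCast_eq_one_of_not_dvd P hr hP hnd_num,
    Fermat.Agent.S05.Sq12.valuation_natCast_eq_one_of_not_dvd P hr hP hnd_den, div_one]

/-- `v_P(a) = v_P(r) ^ v_r(a)` for a nonzero rational number `a` and `P | r`. -/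
theorem valuation_rat_eq (r : ℕ) (hr : r.Prime) (P : ValuationSubring Qb)
    (hP : P.LiesOverPrime r) (a : ℚ) (ha : a ≠ 0) :
    P.valuation (algebraMap ℚ Qb a) = P.valuation (r : Qb) ^ (padicValRat r a) := by
  haveI : Fact r.Prime := ⟨hr⟩
  have hr0 : (r : ℚ) ≠ 0 := by exact_mod_cast hr.ne_zero
  set k : ℤ := padicValRat r a with hk
  set b : ℚ := a / (r : ℚ) ^ k with hb
  have hrk : (r : ℚ) ^ k ≠ 0 := zpow_ne_zero k hr0
  have hb0 : b ≠ 0 := div_ne_zero ha hrk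
  have hvrk : padicValRat r ((r : ℚ) ^ k) = k := by
    rw [padicValRat.zpow, padicValRat.self hr.one_lt, mul_one]
  have hvb : padicValRat r b = 0 := by
    rw [hb, padicValRat.div ha hrk, hvrk, ← hk, sub_self]
  have hab : a = b * (r : ℚ) ^ k := by
    rw [hb, div_mul_cancel₀ _ hrk]
  have h1 := valuation_rat_eq_one r hr P hP b hb0 hvb
  conv_lhs => rw [hab]
  rw [map_mul, map_mul, h1, one_mul, map_zpow₀, map_natCast, map_zpow₀]

/-! ## The field fixed by `I₁` -/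

/-- Norm argument: a nonzero element fixed by `I₁ = {σ ∈ I_P : σ ζ = ζ}` has
`v(y)^m = v(r)^n` for some `0 < m < r`. -/
theorem exists_pow_eq_zpow_of_fixed (r : ℕ) (hr : r.Prime) (P : ValuationSubring Qb)
    (hP : P.LiesOverPrime r) (ζ : Qb) (hζ : IsPrimitiveRoot ζ r) (y : Qb) (hy : y ≠ 0)
    (hfix : ∀ σ ∈ P.inertiaSubgroupIn ℚ, σ ζ = ζ → σ y = y) :
    ∃ m : ℕ, 0 < m ∧ m < r ∧ ∃ n : ℤ, P.valuation y ^ m = P.valuation (r : Qb) ^ n := by
  classical
  haveI : NeZero r := ⟨hr.ne_zero⟩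
  set I := P.inertiaSubgroupIn ℚ with hI
  -- the orbit of `ζ` under inertia
  set O : Finset Qb := (primitiveRoots r Qb).filter (fun z => ∃ σ ∈ I, σ ζ = z) with hO
  have hζO : ζ ∈ O := by
    rw [hO, Finset.mem_filter]
    exact ⟨(mem_primitiveRoots hr.pos).mpr hζ, 1, I.one_mem, rfl⟩
  have hOmem : ∀ z ∈ O, ∃ σ ∈ I, σ ζ = z := fun z hz => (Finset.mem_filter.mp hz).2
  have hOmk : ∀ σ ∈ I, σ ζ ∈ O := by
    intro σ hσ
    rw [hO, Finset.mem_filter]
    refine ⟨(mem_primitiveRoots hr.pos).mpr ?_, σ, hσ, rfl⟩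
    exact hζ.map_of_injective (f := (σ : Qb →ₐ[ℚ] Qb)) σ.injective
  -- representatives
  let τ : Qb → GQ := fun z => if h : ∃ σ ∈ I, σ ζ = z then h.choose else 1
  have hτI : ∀ z ∈ O, τ z ∈ I := by
    intro z hz
    have h := hOmem z hz
    show (if h : ∃ σ ∈ I, σ ζ = z then h.choose else 1) ∈ I
    rw [dif_pos h]
    exact h.choose_spec.1
  have hτζ : ∀ z ∈ O, τ z ζ = z := by
    intro z hz
    have h := hOmem z hz
    show (if h : ∃ σ ∈ I, σ ζ = z then h.choose else 1) ζ = z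
    rw [dif_pos h]
    exact h.choose_spec.2
  set N : Qb := ∏ z ∈ O, τ z y with hN
  have hN0 : N ≠ 0 := by
    rw [hN, Finset.prod_ne_zero_iff]
    intro z _
    exact (map_ne_zero_iff _ (τ z).injective).mpr hy
  -- `σ (τ_z y) = τ_{σ z} y`
  have hperm : ∀ σ ∈ I, ∀ z ∈ O, σ (τ z y) = τ (σ z) y := by
    intro σ hσ z hz
    have hz' : σ z ∈ O := by
      have := hOmk (σ * τ z) (I.mul_mem hσ (hτI z hz))
      rwa [AlgEquiv.mul_apply, hτζ z hz] at this
    set h : GQ := (τ (σ z))⁻¹ * σ * τ z with hh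
    have hhI : h ∈ I := I.mul_mem (I.mul_mem (I.inv_mem (hτI _ hz')) hσ) (hτI z hz)
    have hhζ : h ζ = ζ := by
      rw [hh, AlgEquiv.mul_apply, AlgEquiv.mul_apply, hτζ z hz]
      have h1 : τ (σ z) ζ = σ z := hτζ _ hz'
      have h2 : (τ (σ z))⁻¹ (τ (σ z) ζ) = ζ := (τ (σ z)).symm_apply_apply ζ
      rw [h1] at h2
      exact h2
    have h2 := hfix h hhI hhζ
    rw [hh, AlgEquiv.mul_apply, AlgEquiv.mul_apply] at h2
    have h3 := congrArg (τ (σ z)) h2
    rwa [show (τ (σ z)) ((τ (σ z))⁻¹ (σ (τ z y))) = σ (τ z y) from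
      (τ (σ z)).apply_symm_apply _] at h3
  have hNfix : ∀ σ ∈ I, σ N = N := by
    intro σ hσ
    rw [hN, map_prod]
    rw [Finset.prod_congr rfl (fun z hz => hperm σ hσ z hz)]
    refine Finset.prod_bij (fun z _ => σ z) ?_ ?_ ?_ ?_
    · intro z hz
      have := hOmk (σ * τ z) (I.mul_mem hσ (hτI z hz))
      rwa [AlgEquiv.mul_apply, hτζ z hz] at this
    · intro z _ z' _ h
      exact σ.injective h
    · intro z' hz'
      refine ⟨σ⁻¹ z', ?_, ?_⟩
      · have := hOmk (σ⁻¹ * τ z') (I.mul_mem (I.inv_mem hσ) (hτI z' hz'))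
        rwa [AlgEquiv.mul_apply, hτζ z' hz'] at this
      · exact σ.apply_symm_apply z'
    · intro z _
      rfl
  obtain ⟨n, hn⟩ := Fermat.Agent.S56.H460.unrVal r hr P hP N hN0 hNfix
  have hvN : P.valuation N = P.valuation y ^ O.card := by
    rw [hN, map_prod]
    rw [Finset.prod_congr rfl (fun z hz =>
      Fermat.Agent.S05.Sq12.valuation_apply_eq_of_mem_inertiaIn P (hτI z hz) y)]
    rw [Finset.prod_const]
  refine ⟨O.card, Finset.card_pos.mpr ⟨ζ, hζO⟩, ?_, n, ?_⟩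
  · calc O.card ≤ (primitiveRoots r Qb).card := Finset.card_filter_le _ _
      _ = Nat.totient r := hζ.card_primitiveRoots
      _ = r - 1 := Nat.totient_prime hr
      _ < r := Nat.sub_lt hr.pos one_pos
  · rw [← hvN, hn]

/-! ## PEU-ω / PEU-2 -/

/-- **PEU-ω / PEU-2** (all primes `r`, including `r = 2`): let `(M, act, Λ)` be a Hopf lattice
over `ℤ_(r)` killed by `r`, `P | r`, `ζ` a primitive `r`-th root of unity, `I₁ = {σ ∈ I_P :
σ ζ = ζ}`, `L ⊆ M` a subgroup fixed pointwise by `I₁` and containing all `σ y - y` (`σ ∈ I₁`),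
`ξ : M → 𝔽_r` additive, `x ∈ M`.  If `α ^ r = a ∈ ℚ^×` and `σ α = ζ ^ ξ(σ x - x) · α` for
`σ ∈ I₁` (i.e. `a` is the Kummer class of the cocycle `σ ↦ ξ (σ x - x)`), then `r ∣ v_r(a)`. -/
theorem peuKummer (r : ℕ) [Fact r.Prime] (M : Type) [AddCommGroup M] [Finite M]
    (act : GQ → M → M) (Λ : Subalgebra (Zp r) (M → Qb)) (hΛ : IsHL r act Λ)
    (hM : ∀ x : M, r • x = 0) (P : ValuationSubring Qb) (hP : P.LiesOverPrime r)
    (ζ : Qb) (hζ : IsPrimitiveRoot ζ r) (L : AddSubgroup M)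
    (hL1 : ∀ σ ∈ P.inertiaSubgroupIn ℚ, σ ζ = ζ → ∀ t ∈ L, act σ t = t)
    (hL2 : ∀ σ ∈ P.inertiaSubgroupIn ℚ, σ ζ = ζ → ∀ y : M, act σ y - y ∈ L)
    (ξ : M →+ ZMod r) (x : M) (a : ℚ) (ha : a ≠ 0) (α : Qb)
    (hα : α ^ r = algebraMap ℚ Qb a)
    (hκ : ∀ σ ∈ P.inertiaSubgroupIn ℚ, σ ζ = ζ → σ α = ζ ^ (ξ (act σ x - x)).val * α) :
    (r : ℤ) ∣ padicValRat r a := by
  have hr : r.Prime := Fact.out
  obtain ⟨B, hB, hBκ⟩ := Fermat.Agent.S56.H664.flatUnit r M act Λ hΛ hM P hP ζ hζ L hL1 hL2 ξ x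
  have hB0 : B ≠ 0 := by
    intro h
    rw [h, map_zero] at hB
    exact zero_ne_one hB
  have hα0 : α ≠ 0 := by
    intro h
    rw [h, zero_pow hr.ne_zero] at hα
    exact ha ((algebraMap ℚ Qb).injective (by rw [← hα, map_zero]))
  have hζ0 : ζ ≠ 0 := hζ.ne_zero hr.ne_zero
  -- `y = α / B` is fixed by `I₁`
  have hyfix : ∀ σ ∈ P.inertiaSubgroupIn ℚ, σ ζ = ζ → σ (α / B) = α / B := by
    intro σ hσ hσζ
    rw [map_div₀, hκ σ hσ hσζ, hBκ σ hσ hσζ]
    rw [mul_div_mul_left _ _ (pow_ne_zero _ hζ0)]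
  obtain ⟨m, hm0, hmr, n, hmn⟩ :=
    exists_pow_eq_zpow_of_fixed r hr P hP ζ hζ (α / B) (div_ne_zero hα0 hB0) hyfix
  rw [map_div₀, hB, div_one] at hmn
  -- `v(α)^r = v(r)^k`
  have hk : P.valuation α ^ r = P.valuation (r : Qb) ^ (padicValRat r a) := by
    rw [← map_pow, hα]
    exact valuation_rat_eq r hr P hP a ha
  -- compare
  have hvr : P.valuation (r : Qb) < 1 := (ValuationSubring.mem_nonunits_iff P).mp hP
  have hvr0 : P.valuation (r : Qb) ≠ 0 :=
    (Valuation.ne_zero_iff _).mpr (by exact_mod_cast hr.ne_zero)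
  have hcmp : P.valuation (r : Qb) ^ (n * (r : ℤ)) =
      P.valuation (r : Qb) ^ (padicValRat r a * (m : ℤ)) := by
    rw [zpow_mul, ← hmn, zpow_mul, ← hk, zpow_natCast, zpow_natCast,
      ← pow_mul, ← pow_mul, mul_comm]
  have hinj : n * (r : ℤ) = padicValRat r a * (m : ℤ) := by
    by_contra hne
    rcases lt_or_gt_of_ne hne with h | h
    · have := zpow_lt_zpow_right_of_lt_one₀ (zero_lt_iff.mpr hvr0) hvr h
      rw [hcmp] at this
      exact lt_irrefl _ this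
    · have := zpow_lt_zpow_right_of_lt_one₀ (zero_lt_iff.mpr hvr0) hvr h
      rw [hcmp] at this
      exact lt_irrefl _ this
  have hdvd : (r : ℤ) ∣ padicValRat r a * (m : ℤ) := ⟨n, by rw [← hinj, mul_comm]⟩
  have hcop : IsCoprime (r : ℤ) (m : ℤ) := by
    rw [Int.isCoprime_iff_gcd_eq_one, Int.gcd_natCast_natCast]
    exact Nat.coprime_of_lt_prime hm0.ne' hmr hr
  exact hcop.dvd_of_dvd_mul_right hdvd

/-- PEU-ω / PEU-2 from a Hopf model. -/
theorem peuKummer_of_hopfModel (r : ℕ) [Fact r.Prime] (M : Type) [AddCommGroup M] [Finite M]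
    (act : GQ → M → M) (hH : Fermat.Agent.S19.HopfModel r M act)
    (hM : ∀ x : M, r • x = 0) (P : ValuationSubring Qb) (hP : P.LiesOverPrime r)
    (ζ : Qb) (hζ : IsPrimitiveRoot ζ r) (L : AddSubgroup M)
    (hL1 : ∀ σ ∈ P.inertiaSubgroupIn ℚ, σ ζ = ζ → ∀ t ∈ L, act σ t = t)
    (hL2 : ∀ σ ∈ P.inertiaSubgroupIn ℚ, σ ζ = ζ → ∀ y : M, act σ y - y ∈ L)
    (ξ : M →+ ZMod r) (x : M) (a : ℚ) (ha : a ≠ 0) (α : Qb)
    (hα : α ^ r = algebraMap ℚ Qb a)
    (hκ : ∀ σ ∈ P.inertiaSubgroupIn ℚ, σ ζ = ζ → σ α = ζ ^ (ξ (act σ x - x)).val * α) :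
    (r : ℤ) ∣ padicValRat r a := by
  obtain ⟨Λ, hΛ⟩ := Fermat.Agent.S19.H435.exists_isHopfLattice_of_hopfModel hH
  exact peuKummer r M act Λ hΛ hM P hP ζ hζ L hL1 hL2 ξ x a ha α hα hκ

end Fermat.Agent.S15.H379
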