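import Fermat.Agent.S15.H379.Peu

/-!
# S15 / DESC, BASE dictionary (B3) — Kummer classes unramified at `l` (helper379)

`kummer_dvd_padicValRat`: let `r`, `l` be primes (`l = r` allowed), `P | l` a place of `ℚ̄`,
`ζ` a primitive `r`-th root of unity and `α ^ r = a ∈ ℚ^×`.  If every `σ ∈ I_P` fixing `ζ` fixes
`α` (the Kummer cocycle of `a` is trivial on `I₁ = I_P ∩ G_{ℚ(ζ)}`, e.g. it is unramified at `P`),
then `r ∣ v_l(a)`.

`kummer_dvd_padicValRat_of_cocycle`: the same in cocycle form: `σ α = ζ ^ (c σ).val · α` and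
`c σ = 0` on `I₁`.

The norm argument of `Peu.lean` for a place over an arbitrary prime `l`.
-/

set_option autoImplicit false
set_option linter.unusedSectionVars false
set_option linter.style.haveILetI false

noncomputable section

namespace Fermat.Agent.S15.H379

open Fermat.Agent.S56 Fermat.Agent.S56.H906

/-- Norm argument at a place over any prime `l`: a nonzero element fixed by
`I₁ = {σ ∈ I_P : σ ζ = ζ}` (`ζ` a primitive `r`-th root of unity, `r` prime) has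
`v(y)^m = v(l)^n` for some `0 < m < r`. -/
theorem exists_pow_eq_zpow_of_fixed_at (r l : ℕ) (hr : r.Prime) (hl : l.Prime)
    (P : ValuationSubring Qb) (hP : P.LiesOverPrime l) (ζ : Qb) (hζ : IsPrimitiveRoot ζ r)
    (y : Qb) (hy : y ≠ 0)
    (hfix : ∀ σ ∈ P.inertiaSubgroupIn ℚ, σ ζ = ζ → σ y = y) :
    ∃ m : ℕ, 0 < m ∧ m < r ∧ ∃ n : ℤ, P.valuation y ^ m = P.valuation (l : Qb) ^ n := by
  classical
  haveI : NeZero r := ⟨hr.ne_zero⟩
  set I := P.inertiaSubgroupIn ℚ with hI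
  set O : Finset Qb := (primitiveRoots r Qb).filter (fun z => ∃ σ ∈ I, σ ζ = z) with hO
  have hζO : ζ ∈ O := by
    rw [hO, Finset.mem_filter]
    exact ⟨(mem_primitiveRoots hr.pos).mpr hζ, 1, I.one_mem, rfl⟩
  have hOmem : ∀ z ∈ O, ∃ σ ∈ I, σ ζ = z := fun z hz => (Finset.mem_filter.mp hz).2
  have hOmk : ∀ σ ∈ I, σ ζ ∈ O := by
    intro σ hσ
    rw [hO, Finset.mem_filter]
    refine ⟨(mem_primitiveRoots hr.pos).mpr ?_, σ, hσ, rfl⟩
    exact hζ.map_of_injective (f := (σ : Qb →ₐ[ℚ] Qb)) σ.injective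
  let τ : Qb → GQ := fun z => if h : ∃ σ ∈ I, σ ζ = z then h.choose else 1
  have hτI : ∀ z ∈ O, τ z ∈ I := by
    intro z hz
    have h := hOmem z hz
    show (if h : ∃ σ ∈ I, σ ζ = z then h.choose else 1) ∈ I
    rw [dif_pos h]
    exact h.choose_spec.1
  have hτζ : ∀ z ∈ O, τ z ζ = z := by
    intro z hz
    have h := hOmem z hz
    show (if h : ∃ σ ∈ I, σ ζ = z then h.choose else 1) ζ = z
    rw [dif_pos h]
    exact h.choose_spec.2
  set N : Qb := ∏ z ∈ O, τ z y with hN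
  have hN0 : N ≠ 0 := by
    rw [hN, Finset.prod_ne_zero_iff]
    intro z _
    exact (map_ne_zero_iff _ (τ z).injective).mpr hy
  have hperm : ∀ σ ∈ I, ∀ z ∈ O, σ (τ z y) = τ (σ z) y := by
    intro σ hσ z hz
    have hz' : σ z ∈ O := by
      have := hOmk (σ * τ z) (I.mul_mem hσ (hτI z hz))
      rwa [AlgEquiv.mul_apply, hτζ z hz] at this
    set h : GQ := (τ (σ z))⁻¹ * σ * τ z with hh
    have hhI : h ∈ I := I.mul_mem (I.mul_mem (I.inv_mem (hτI _ hz')) hσ) (hτI z hz)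
    have hhζ : h ζ = ζ := by
      rw [hh, AlgEquiv.mul_apply, AlgEquiv.mul_apply, hτζ z hz]
      have h1 : τ (σ z) ζ = σ z := hτζ _ hz'
      have h2 : (τ (σ z))⁻¹ (τ (σ z) ζ) = ζ := (τ (σ z)).symm_apply_apply ζ
      rw [h1] at h2
      exact h2
    have h2 := hfix h hhI hhζ
    rw [hh, AlgEquiv.mul_apply, AlgEquiv.mul_apply] at h2
    have h3 := congrArg (τ (σ z)) h2
    rwa [show (τ (σ z)) ((τ (σ z))⁻¹ (σ (τ z y))) = σ (τ z y) from
      (τ (σ z)).apply_symm_apply _] at h3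
  have hNfix : ∀ σ ∈ I, σ N = N := by
    intro σ hσ
    rw [hN, map_prod]
    rw [Finset.prod_congr rfl (fun z hz => hperm σ hσ z hz)]
    refine Finset.prod_bij (fun z _ => σ z) ?_ ?_ ?_ ?_
    · intro z hz
      have := hOmk (σ * τ z) (I.mul_mem hσ (hτI z hz))
      rwa [AlgEquiv.mul_apply, hτζ z hz] at this
    · intro z _ z' _ h
      exact σ.injective h
    · intro z' hz'
      refine ⟨σ⁻¹ z', ?_, ?_⟩
      · have := hOmk (σ⁻¹ * τ z') (I.mul_mem (I.inv_mem hσ) (hτI z' hz'))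
        rwa [AlgEquiv.mul_apply, hτζ z' hz'] at this
      · exact σ.apply_symm_apply z'
    · intro z _
      rfl
  obtain ⟨n, hn⟩ := Fermat.Agent.S56.H460.unrVal l hl P hP N hN0 hNfix
  have hvN : P.valuation N = P.valuation y ^ O.card := by
    rw [hN, map_prod]
    rw [Finset.prod_congr rfl (fun z hz =>
      Fermat.Agent.S05.Sq12.valuation_apply_eq_of_mem_inertiaIn P (hτI z hz) y)]
    rw [Finset.prod_const]
  refine ⟨O.card, Finset.card_pos.mpr ⟨ζ, hζO⟩, ?_, n, ?_⟩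
  · calc O.card ≤ (primitiveRoots r Qb).card := Finset.card_filter_le _ _
      _ = Nat.totient r := hζ.card_primitiveRoots
      _ = r - 1 := Nat.totient_prime hr
      _ < r := Nat.sub_lt hr.pos one_pos
  · rw [← hvN, hn]

/-- **Kummer dictionary (B3).**  `α ^ r = a ∈ ℚ^×`, `P | l`; if every inertia element at `P`
fixing `ζ_r` fixes `α`, then `r ∣ v_l(a)`. -/
theorem kummer_dvd_padicValRat (r l : ℕ) (hr : r.Prime) (hl : l.Prime)
    (P : ValuationSubring Qb) (hP : P.LiesOverPrime l) (ζ : Qb) (hζ : IsPrimitiveRoot ζ r)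
    (a : ℚ) (ha : a ≠ 0) (α : Qb) (hα : α ^ r = algebraMap ℚ Qb a)
    (hfix : ∀ σ ∈ P.inertiaSubgroupIn ℚ, σ ζ = ζ → σ α = α) :
    (r : ℤ) ∣ padicValRat l a := by
  have hα0 : α ≠ 0 := by
    intro h
    rw [h, zero_pow hr.ne_zero] at hα
    exact ha ((algebraMap ℚ Qb).injective (by rw [← hα, map_zero]))
  obtain ⟨m, hm0, hmr, n, hmn⟩ :=
    exists_pow_eq_zpow_of_fixed_at r l hr hl P hP ζ hζ α hα0 hfix
  have hk : P.valuation α ^ r = P.valuation (l : Qb) ^ (padicValRat l a) := by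
    rw [← map_pow, hα]
    exact valuation_rat_eq l hl P hP a ha
  have hvl : P.valuation (l : Qb) < 1 := (ValuationSubring.mem_nonunits_iff P).mp hP
  have hvl0 : P.valuation (l : Qb) ≠ 0 :=
    (Valuation.ne_zero_iff _).mpr (by exact_mod_cast hl.ne_zero)
  have hcmp : P.valuation (l : Qb) ^ (n * (r : ℤ)) =
      P.valuation (l : Qb) ^ (padicValRat l a * (m : ℤ)) := by
    rw [zpow_mul, ← hmn, zpow_mul, ← hk, zpow_natCast, zpow_natCast,
      ← pow_mul, ← pow_mul, mul_comm]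
  have hinj : n * (r : ℤ) = padicValRat l a * (m : ℤ) := by
    by_contra hne
    rcases lt_or_gt_of_ne hne with h | h
    · have := zpow_lt_zpow_right_of_lt_one₀ (zero_lt_iff.mpr hvl0) hvl h
      rw [hcmp] at this
      exact lt_irrefl _ this
    · have := zpow_lt_zpow_right_of_lt_one₀ (zero_lt_iff.mpr hvl0) hvl h
      rw [hcmp] at this
      exact lt_irrefl _ this
  have hdvd : (r : ℤ) ∣ padicValRat l a * (m : ℤ) := ⟨n, by rw [← hinj, mul_comm]⟩
  have hcop : IsCoprime (r : ℤ) (m : ℤ) := by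
    rw [Int.isCoprime_iff_gcd_eq_one, Int.gcd_natCast_natCast]
    exact Nat.coprime_of_lt_prime hm0.ne' hmr hr
  exact hcop.dvd_of_dvd_mul_right hdvd

/-- Cocycle form of the Kummer dictionary: `σ α = ζ ^ (c σ).val · α` for `σ ∈ I₁` and `c`
vanishes on `I₁` (e.g. `c` is unramified at `P`). -/
theorem kummer_dvd_padicValRat_of_cocycle (r l : ℕ) (hr : r.Prime) (hl : l.Prime)
    (P : ValuationSubring Qb) (hP : P.LiesOverPrime l) (ζ : Qb) (hζ : IsPrimitiveRoot ζ r)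
    (a : ℚ) (ha : a ≠ 0) (α : Qb) (hα : α ^ r = algebraMap ℚ Qb a) (c : GQ → ZMod r)
    (hκ : ∀ σ ∈ P.inertiaSubgroupIn ℚ, σ ζ = ζ → σ α = ζ ^ (c σ).val * α)
    (hc : ∀ σ ∈ P.inertiaSubgroupIn ℚ, σ ζ = ζ → c σ = 0) :
    (r : ℤ) ∣ padicValRat l a := by
  refine kummer_dvd_padicValRat r l hr hl P hP ζ hζ a ha α hα fun σ hσ hσζ => ?_
  haveI : NeZero r := ⟨hr.ne_zero⟩
  rw [hκ σ hσ hσζ, hc σ hσ hσζ, ZMod.val_zero, pow_zero, one_mul]

end Fermat.Agent.S15.H379
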